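import Mathlib
import Fermat.Agent.TT.Red2.Into
import Fermat.Prelude.Def_AlgebraicCurve_Correspondence

/-!
# PROGRAM MR (S44), block `mrf` = FALSE NODES : the abstract two-sided POLE count

Owner: helper23.  Prefix `mrf`.  Namespace `Fermat.Agent.MR`.

`φ : F₀ → F` a finite map of function fields over `K` of degree `p + 1` (the degeneracy map `α`),
`O2 ⊂ F` the two-valuation Gauss ring with its two reductions `red₁`, `red₂`, `Q₁` a closed point of
the first component and `Q₂` a closed point of the second component with DISJOINT residue discs,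
both carrying the local package `TtriPt` of (POLE).  Let `y₀ ∈ F₀` with `φ y₀ ∈ O2ˣ`,
`ord_{Q₁} (red₁ (φ y₀)) = 1`, `p ≤ ord_{Q₂} (red₂ (φ y₀))`, whose only zero below the two discs is
a simple zero at the place `P₀` of `F₀`.  Then the fibre of `φ` over `P₀` meets the disc of `Q₁` in
EXACTLY ONE place, and `φ` is unramified there.

Proof : (POLE) for `(φ y₀)⁻¹` at `Q₁` and at `Q₂` gives `1 ≤ Σ_{v | P₀, v ∈ disc Q₁} e_v` and
`p ≤ Σ_{v | P₀, v ∈ disc Q₂} e_v`; the fundamental identity gives `Σ_{v | P₀} e_v = p + 1`.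
-/

set_option autoImplicit false
set_option linter.unusedSectionVars false
set_option linter.unusedVariables false

noncomputable section

namespace Fermat.Agent.MR

open AlgebraicCurve IsLocalRing Fermat.Agent.G Fermat.Agent.S24 Fermat.Agent.FF Fermat.Agent.TT

section Abs

variable {K F₀ F : Type*} [Field K] [Field F₀] [Field F] [Algebra K F₀] [Algebra K F]
  [HasPrincipalDivisors K F]

/-- the ramification index along an integral map is positive. -/
theorem mrf_ramificationIndexAlong_pos (φ : F₀ →ₐ[K] F) (hφ : φ.toRingHom.IsIntegral)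
    (w : Place K F) : 0 < w.ramificationIndexAlong φ := by
  letI := algebraAlong φ
  haveI := isScalarTower_along φ
  haveI := isIntegral_along φ hφ
  exact w.ramificationIndex_pos

/-- the degree of a divisor when all places have degree one. -/
theorem mrf_degree_eq_sum (hdeg : ∀ v : Place K F, v.deg = 1) (D : Divisor K F) :
    Divisor.degree D = ∑ v ∈ D.support, D v := by
  rw [Divisor.degree, Finsupp.liftAddHom_apply]
  refine Finset.sum_congr rfl fun v _ => ?_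
  show D v * (v.deg : ℤ) = D v
  rw [hdeg v]
  simp

/-- the pull-back of a point, at a place over it. -/
theorem mrf_pullback_point_eq (φ : F₀ →ₐ[K] F) (hφ : φ.toRingHom.IsIntegral)
    (P₀ : Place K F₀) (w : Place K F) (h : w.restrictAlong φ hφ = P₀) :
    Divisor.pullbackAlong φ hφ (Finsupp.single P₀ 1) w = (w.ramificationIndexAlong φ : ℤ) := by
  rw [Divisor.pullbackAlong_apply, h, Finsupp.single_eq_same, mul_one]

/-- the pull-back of a point, at a place not over it. -/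
theorem mrf_pullback_point_ne (φ : F₀ →ₐ[K] F) (hφ : φ.toRingHom.IsIntegral)
    (P₀ : Place K F₀) (w : Place K F) (h : w.restrictAlong φ hφ ≠ P₀) :
    Divisor.pullbackAlong φ hφ (Finsupp.single P₀ 1) w = 0 := by
  rw [Divisor.pullbackAlong_apply, Finsupp.single_eq_of_ne (fun h' => h h'), mul_zero]

/-- the pull-back of a point is effective. -/
theorem mrf_pullback_point_nonneg (φ : F₀ →ₐ[K] F) (hφ : φ.toRingHom.IsIntegral)
    (P₀ : Place K F₀) (w : Place K F) :
    0 ≤ Divisor.pullbackAlong φ hφ (Finsupp.single P₀ 1) w := by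
  by_cases h : w.restrictAlong φ hφ = P₀
  · rw [mrf_pullback_point_eq φ hφ P₀ w h]
    exact Int.natCast_nonneg _
  · rw [mrf_pullback_point_ne φ hφ P₀ w h]

variable (A : ValuationSubring K) {Fk : Type*} [Field Fk] [Algebra (ResidueField A) Fk]

/-- one half of the count : (POLE) for `(φ y₀)⁻¹` at a closed point `Q` whose disc contains, below,
only the simple zero `P₀` of `y₀`. -/
theorem mrf_half (φ : F₀ →ₐ[K] F) (hφ : φ.toRingHom.IsIntegral)
    {O2 B : Subring F} {hBO : B ≤ O2} {red : O2 →+* Fk} {cen : Place K F → Prop}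
    {Q : Place (ResidueField A) Fk} (h : TtriPt A O2 B hBO red cen Q) [DecidablePred cen]
    (y₀ : F₀) (hy0 : y₀ ≠ 0) (P₀ : Place K F₀) (hy : φ y₀ ∈ O2) (hyi : (φ y₀)⁻¹ ∈ O2)
    (hz : ∀ v, cen v → ((v.restrictAlong φ hφ).ord y₀ = 1 ∧ v.restrictAlong φ hφ = P₀) ∨
      ((v.restrictAlong φ hφ).ord y₀ = 0 ∧ v.restrictAlong φ hφ ≠ P₀)) :
    Q.ord (red ⟨φ y₀, hy⟩) ≤
      ∑ v ∈ (Divisor.pullbackAlong φ hφ (Finsupp.single P₀ 1)).support.filter cen,
        Divisor.pullbackAlong φ hφ (Finsupp.single P₀ 1) v := by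
  set E := Divisor.pullbackAlong φ hφ (Finsupp.single P₀ 1) with hE
  have h0 : φ y₀ ≠ 0 := by
    intro h0
    exact hy0 ((map_eq_zero φ).1 h0)
  have hmul : red ⟨φ y₀, hy⟩ * red ⟨(φ y₀)⁻¹, hyi⟩ = 1 := by
    rw [← map_mul]
    have : (⟨φ y₀, hy⟩ : O2) * ⟨(φ y₀)⁻¹, hyi⟩ = 1 := Subtype.ext (mul_inv_cancel₀ h0)
    rw [this, map_one]
  have hr0 : red ⟨φ y₀, hy⟩ ≠ 0 := left_ne_zero_of_mul_eq_one hmul
  have hri0 : red ⟨(φ y₀)⁻¹, hyi⟩ ≠ 0 := right_ne_zero_of_mul_eq_one hmul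
  have hord : Q.ord (red ⟨φ y₀, hy⟩) + Q.ord (red ⟨(φ y₀)⁻¹, hyi⟩) = 0 := by
    rw [← Q.ord_mul hr0 hri0, hmul, Place.ord_one]
  have hEv : ∀ v, cen v → E v = v.ord (φ y₀) := by
    intro v hv
    rw [Place.ord_restrictAlong φ hφ v y₀]
    rcases hz v hv with ⟨h1, h2⟩ | ⟨h1, h2⟩
    · rw [h1, mul_one, hE, mrf_pullback_point_eq φ hφ P₀ v h2]
    · rw [h1, mul_zero, hE, mrf_pullback_point_ne φ hφ P₀ v h2]
  have hnn : ∀ v, 0 ≤ E v := fun v => mrf_pullback_point_nonneg φ hφ P₀ v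
  have key := h.ord_ge hyi (inv_ne_zero h0) hri0 E
    (fun v hv => by rw [Place.ord_inv, hEv v hv])
    (fun v _ => by have := hnn v; omega)
    (fun v w _ _ hv _ => by have := hnn v; omega)
  omega

/-- **THE TWO-SIDED COUNT.**  The fibre of `φ` over `P₀` meets the residue disc of `Q₁` in exactly
one place, at which `φ` is unramified. -/
theorem mrf_count (φ : F₀ →ₐ[K] F) (hφ : φ.toRingHom.IsIntegral)
    (hFI : FundamentalIdentityAlong K φ hφ) (hdeg : ∀ v : Place K F, v.deg = 1)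
    {p : ℕ} (hn : finrankAlong K φ = p + 1)
    {Fk₂ : Type*} [Field Fk₂] [Algebra (ResidueField A) Fk₂]
    {O2 B₁ B₂ : Subring F} {hBO₁ : B₁ ≤ O2} {hBO₂ : B₂ ≤ O2} {red₁ : O2 →+* Fk}
    {red₂ : O2 →+* Fk₂}
    {cen₁ cen₂ : Place K F → Prop} {Q₁ : Place (ResidueField A) Fk}
    {Q₂ : Place (ResidueField A) Fk₂}
    (h₁ : TtriPt A O2 B₁ hBO₁ red₁ cen₁ Q₁) (h₂ : TtriPt A O2 B₂ hBO₂ red₂ cen₂ Q₂)
    (hdisj : ∀ v, cen₁ v → cen₂ v → False)
    (y₀ : F₀) (hy0 : y₀ ≠ 0) (P₀ : Place K F₀) (hP₀ : P₀.deg = 1)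
    (hy : φ y₀ ∈ O2) (hyi : (φ y₀)⁻¹ ∈ O2)
    (hz₁ : ∀ v, cen₁ v → ((v.restrictAlong φ hφ).ord y₀ = 1 ∧ v.restrictAlong φ hφ = P₀) ∨
      ((v.restrictAlong φ hφ).ord y₀ = 0 ∧ v.restrictAlong φ hφ ≠ P₀))
    (hz₂ : ∀ v, cen₂ v → ((v.restrictAlong φ hφ).ord y₀ = 1 ∧ v.restrictAlong φ hφ = P₀) ∨
      ((v.restrictAlong φ hφ).ord y₀ = 0 ∧ v.restrictAlong φ hφ ≠ P₀))
    (hQ₁ : 1 ≤ Q₁.ord (red₁ ⟨φ y₀, hy⟩)) (hQ₂ : (p : ℤ) ≤ Q₂.ord (red₂ ⟨φ y₀, hy⟩)) :
    ∀ v, cen₁ v → v.restrictAlong φ hφ = P₀ →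
      v.ramificationIndexAlong φ = 1 ∧
        ∀ v', cen₁ v' → v'.restrictAlong φ hφ = P₀ → v' = v := by
  classical
  set E := Divisor.pullbackAlong φ hφ (Finsupp.single P₀ 1) with hE
  have hnn : ∀ v, 0 ≤ E v := fun v => mrf_pullback_point_nonneg φ hφ P₀ v
  have hS₁ := mrf_half A φ hφ h₁ y₀ hy0 P₀ hy hyi hz₁
  have hS₂ := mrf_half A φ hφ h₂ y₀ hy0 P₀ hy hyi hz₂
  rw [← hE] at hS₁ hS₂
  have htot : ∑ v ∈ E.support, E v = (p : ℤ) + 1 := by
    rw [← mrf_degree_eq_sum hdeg E, hE, Divisor.degree_pullbackAlong φ hφ hFI, hn,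
      Divisor.degree_single, hP₀]
    push_cast
    ring
  have hdj : Disjoint (E.support.filter cen₁) (E.support.filter cen₂) := by
    rw [Finset.disjoint_left]
    intro v hv₁ hv₂
    exact hdisj v (Finset.mem_filter.1 hv₁).2 (Finset.mem_filter.1 hv₂).2
  have hsub : E.support.filter cen₁ ∪ E.support.filter cen₂ ⊆ E.support :=
    Finset.union_subset (Finset.filter_subset _ _) (Finset.filter_subset _ _)
  have hle : ∑ v ∈ E.support.filter cen₁, E v + ∑ v ∈ E.support.filter cen₂, E v ≤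
      ∑ v ∈ E.support, E v := by
    rw [← Finset.sum_union hdj]
    exact Finset.sum_le_sum_of_subset_of_nonneg hsub fun v _ _ => hnn v
  have hS₁le : ∑ v ∈ E.support.filter cen₁, E v ≤ 1 := by omega
  intro v hv hvP
  have hEv : E v = (v.ramificationIndexAlong φ : ℤ) := mrf_pullback_point_eq φ hφ P₀ v hvP
  have hepos := mrf_ramificationIndexAlong_pos φ hφ v
  have hvmem : v ∈ E.support.filter cen₁ := by
    rw [Finset.mem_filter, Finsupp.mem_support_iff]
    exact ⟨by rw [hEv]; omega, hv⟩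
  have hsplit : ∑ w ∈ E.support.filter cen₁, E w =
      E v + ∑ w ∈ (E.support.filter cen₁).erase v, E w :=
    (Finset.add_sum_erase _ _ hvmem).symm
  have hrest : 0 ≤ ∑ w ∈ (E.support.filter cen₁).erase v, E w :=
    Finset.sum_nonneg fun w _ => hnn w
  refine ⟨by omega, fun v' hv' hv'P => ?_⟩
  by_contra hne
  have hEv' : E v' = (v'.ramificationIndexAlong φ : ℤ) := mrf_pullback_point_eq φ hφ P₀ v' hv'P
  have hepos' := mrf_ramificationIndexAlong_pos φ hφ v'
  have hv'mem : v' ∈ (E.support.filter cen₁).erase v := by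
    rw [Finset.mem_erase, Finset.mem_filter, Finsupp.mem_support_iff]
    exact ⟨hne, by rw [hEv']; omega, hv'⟩
  have h2 : E v' ≤ ∑ w ∈ (E.support.filter cen₁).erase v, E w :=
    Finset.single_le_sum (fun w _ => hnn w) hv'mem
  omega

end Abs

end Fermat.Agent.MR
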