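import Mathlib
import Fermat.Agent.MR.False.CountAbs
import Fermat.Agent.G.Red.Simple
import Fermat.Agent.G.Red.Lift
import Fermat.Agent.G.Red.DivChart
import Fermat.Agent.TT.Red2.GoodVal

/-!
# PROGRAM MR (S44), block `mrf` = FALSE NODES : the disc coordinate, abstract level-`M p` side

Owner: helper23.  Prefix `mrf`.  Namespace `Fermat.Agent.MR`.

Level `M` (landed, package G/Red) : a chart `hc : GrdChart M 𝔸 υ`, a place `Q` of `F_k(M)`,
`t₀ ∈ grdO M 𝔸` integral over `𝔸[u]` with `ord_Q t̄₀ = 1`.  Level `M p`, abstract : a map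
`φ : F_ℚ̄(M) → F` of degree `p + 1`, the ring `O2` with two reductions, `Q` seen on the component on
which `φ` is an isomorphism (`red₁ (φ y) = ȳ`), `Q₂` on the component on which `φ` is the Frobenius
(`ord_{Q₂} (red₂ (φ y)) = p ord_Q ȳ`), the two residue discs disjoint, every place of the two discs
lying (through `φ`) over a place of the chart reducing to `Q`.

`mrf_disc_core` : `t = φ t₀` is a coordinate of the residue disc of `Q` : every place `v` of the
disc has `t(v) =: c ∈ 𝔪_𝔸`, `t - c` has a simple zero at `v` and no other zero in the disc.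
-/

set_option autoImplicit false
set_option linter.unusedSectionVars false
set_option linter.unusedVariables false
set_option linter.style.haveILetI false

noncomputable section

namespace Fermat.Agent.MR

open ModularCurve AlgebraicCurve IsLocalRing Fermat.Agent.G Fermat.Agent.S24 Fermat.Agent.FF
  Fermat.Agent.TT

local notation "Qb" => AlgebraicClosure ℚ

section Core

variable (M : ℕ) [NeZero M] {p : ℕ} [Fact p.Prime]
variable (A : ValuationSubring Qb) {υ : LaurentSeries ℤ}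
variable {F : Type*} [Field F] [Algebra Qb F] [HasPrincipalDivisors Qb F]

/-- the zero pattern of `y₀ = t₀ - β` below a place lying over the chart and reducing to `Q`. -/
theorem mrf_zero_pattern (hpM : ¬ p ∣ M) (hA : A.LiesOverPrime p) (hc : GrdChart M A υ)
    (Q : Place (ResidueField A) (modularFunctionFieldFullC (ResidueField A) M))
    (t₀ : ↥(grdO M A)) (ht₀ : GrdIsInt M A (grdQ M hc.mem) (t₀ : modularFunctionFieldBar M))
    (hord : Q.ord (grdRed M A t₀) = 1)
    (P₀ : Place Qb (modularFunctionFieldBar M)) (hP₀ : GrdInChart M A (grdQ M hc.mem) P₀)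
    (hP₀Q : GrdRel M A (grdQ M hc.mem) P₀ Q) (β : A)
    (hβ : GrdVal P₀ (t₀ : modularFunctionFieldBar M) (β : Qb))
    (P' : Place Qb (modularFunctionFieldBar M)) (hP' : GrdInChart M A (grdQ M hc.mem) P')
    (hP'Q : GrdRel M A (grdQ M hc.mem) P' Q) :
    (P'.ord ((t₀ : modularFunctionFieldBar M) -
        algebraMap Qb (modularFunctionFieldBar M) (β : Qb)) = 1 ∧ P' = P₀) ∨
      (P'.ord ((t₀ : modularFunctionFieldBar M) -
        algebraMap Qb (modularFunctionFieldBar M) (β : Qb)) = 0 ∧ P' ≠ P₀) := by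
  obtain ⟨h1, huniq⟩ := grd_simple_zero M A hpM hA hc P₀ hP₀ Q hP₀Q t₀ ht₀ hord β hβ
  by_cases hPP : P' = P₀
  · left
    exact ⟨by rw [hPP]; exact h1, hPP⟩
  · right
    refine ⟨?_, hPP⟩
    set w : modularFunctionFieldBar M := (t₀ : modularFunctionFieldBar M) -
      algebraMap Qb (modularFunctionFieldBar M) (β : Qb) with hw
    have hwint : GrdIsInt M A (grdQ M hc.mem) w :=
      (grdB M A (grdQ M hc.mem)).sub_mem ht₀ (grdr5_isInt_const M A _ β)
    by_contra hne0
    have hw0 : w ≠ 0 := by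
      intro h0
      rw [h0, Place.ord_zero] at hne0
      exact hne0 rfl
    obtain ⟨a, ha⟩ := grd_val_exists M A hc P' hP' hwint
    have hmem : w ∈ P'.toValuationSubring := grdg_val_mem P' ha
    have hnn : 0 ≤ P'.ord w := (grdg_mem_iff_ord P' hw0).mp hmem
    have hpos : 0 < P'.ord w := lt_of_le_of_ne hnn (Ne.symm hne0)
    have hv0 : GrdVal P' w 0 := (grdg_val_zero_iff_ord P' hw0).mpr hpos
    have hvβ : GrdVal P' (t₀ : modularFunctionFieldBar M) (β : Qb) := by
      rw [grdg_val_zero_iff] at hv0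
      exact hv0
    exact hPP (huniq P' hP' hP'Q hvβ)

variable {Fk : Type*} [Field Fk] [Algebra (ResidueField A) Fk]

/-- **THE DISC COORDINATE.**  `t = φ t₀` : at every place `v` of the residue disc of `Q`,
`t(v) =: c ∈ 𝔪_𝔸`, `t - c` has a simple zero at `v` and no other zero in the disc. -/
theorem mrf_disc_core (hpM : ¬ p ∣ M) (hA : A.LiesOverPrime p) (hc : GrdChart M A υ)
    (φ : modularFunctionFieldBar M →ₐ[Qb] F) (hφ : φ.toRingHom.IsIntegral)
    (hFI : FundamentalIdentityAlong Qb φ hφ) (hdeg : ∀ v : Place Qb F, v.deg = 1)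
    (hdeg₀ : ∀ v : Place Qb (modularFunctionFieldBar M), v.deg = 1)
    (hn : finrankAlong Qb φ = p + 1)
    {O2 B₁ B₂ : Subring F} {hBO₁ : B₁ ≤ O2} {hBO₂ : B₂ ≤ O2}
    {red₁ : O2 →+* modularFunctionFieldFullC (ResidueField A) M} {red₂ : O2 →+* Fk}
    {cen₁ cen₂ : Place Qb F → Prop}
    (Q : Place (ResidueField A) (modularFunctionFieldFullC (ResidueField A) M))
    (Q₂ : Place (ResidueField A) Fk)
    (h₁ : TtriPt A O2 B₁ hBO₁ red₁ cen₁ Q) (h₂ : TtriPt A O2 B₂ hBO₂ red₂ cen₂ Q₂)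
    (hdisj : ∀ v, cen₁ v → cen₂ v → False)
    (hbase : ∀ y ∈ grdO M A, φ y ∈ O2)
    (hred₁ : ∀ (y : modularFunctionFieldBar M) (hy : y ∈ grdO M A),
      red₁ ⟨φ y, hbase y hy⟩ = grdRed M A ⟨y, hy⟩)
    (hred₂ : ∀ (y : modularFunctionFieldBar M) (hy : y ∈ grdO M A),
      Q₂.ord (red₂ ⟨φ y, hbase y hy⟩) = (p : ℤ) * Q.ord (grdRed M A ⟨y, hy⟩))
    (hrel₁ : ∀ v, cen₁ v → GrdInChart M A (grdQ M hc.mem) (v.restrictAlong φ hφ) ∧
      GrdRel M A (grdQ M hc.mem) (v.restrictAlong φ hφ) Q)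
    (hrel₂ : ∀ v, cen₂ v → GrdInChart M A (grdQ M hc.mem) (v.restrictAlong φ hφ) ∧
      GrdRel M A (grdQ M hc.mem) (v.restrictAlong φ hφ) Q)
    (t₀ : ↥(grdO M A)) (ht₀ : GrdIsInt M A (grdQ M hc.mem) (t₀ : modularFunctionFieldBar M))
    (hord : Q.ord (grdRed M A t₀) = 1) :
    ∀ v, cen₁ v → ∃ c : Qb, c ∈ A.nonunits ∧
      GrdVal v (φ (t₀ : modularFunctionFieldBar M)) c ∧
      v.ord (φ (t₀ : modularFunctionFieldBar M) - algebraMap Qb F c) = 1 ∧
      ∀ v', cen₁ v' → v' ≠ v →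
        v'.ord (φ (t₀ : modularFunctionFieldBar M) - algebraMap Qb F c) = 0 := by
  classical
  intro v hv
  set P₀ := v.restrictAlong φ hφ with hP₀def
  obtain ⟨hP₀, hP₀Q⟩ := hrel₁ v hv
  obtain ⟨β, hβ⟩ := grd_val_exists M A hc P₀ hP₀ ht₀
  have ht₀ne : grdRed M A t₀ ≠ 0 := by
    intro h0
    rw [h0, Place.ord_zero] at hord
    exact zero_ne_one hord
  have hβ0 : residue A β = 0 := by
    have h1 : GrdVal Q (grdRed M A t₀) (residue A β) :=
      hP₀Q (t₀ : modularFunctionFieldBar M) t₀.2 ht₀ β hβ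
    have h2 : GrdVal Q (grdRed M A t₀) 0 :=
      (grdg_val_zero_iff_ord Q ht₀ne).mpr (by rw [hord]; exact one_pos)
    exact grdg_val_unique Q h1 h2
  have hβm : (β : Qb) ∈ A.nonunits := by
    exact (ValuationSubring.coe_mem_nonunits_iff (A := A)).mpr ((residue_eq_zero_iff β).1 hβ0)
  set βO : ↥(grdO M A) := ⟨algebraMap Qb (modularFunctionFieldBar M) (β : Qb),
    grdO_algebraMap_mem M A β⟩ with hβO
  set w : ↥(grdO M A) := t₀ - βO with hw
  have hwcoe : (w : modularFunctionFieldBar M) = (t₀ : modularFunctionFieldBar M) -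
      algebraMap Qb (modularFunctionFieldBar M) (β : Qb) := rfl
  have hwred : grdRed M A w = grdRed M A t₀ := by
    rw [hw, map_sub, hβO, grdRed_algebraMap, hβ0, map_zero, sub_zero]
  have hwne : grdRed M A w ≠ 0 := by rw [hwred]; exact ht₀ne
  have hw0 : (w : modularFunctionFieldBar M) ≠ 0 := by
    intro h0
    apply hwne
    have : w = 0 := Subtype.ext h0
    rw [this, map_zero]
  have hwinv : (w : modularFunctionFieldBar M)⁻¹ ∈ grdO M A := grdl_inv_mem M A w hwne
  have hφw : φ (w : modularFunctionFieldBar M) =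
      φ (t₀ : modularFunctionFieldBar M) - algebraMap Qb F (β : Qb) := by
    rw [hwcoe, map_sub, AlgHom.commutes]
  have hy : φ (w : modularFunctionFieldBar M) ∈ O2 := hbase _ w.2
  have hyi : (φ (w : modularFunctionFieldBar M))⁻¹ ∈ O2 := by
    rw [← map_inv₀]
    exact hbase _ hwinv
  have hz : ∀ (cen : Place Qb F → Prop),
      (∀ v, cen v → GrdInChart M A (grdQ M hc.mem) (v.restrictAlong φ hφ) ∧
        GrdRel M A (grdQ M hc.mem) (v.restrictAlong φ hφ) Q) →
      ∀ v', cen v' → ((v'.restrictAlong φ hφ).ord (w : modularFunctionFieldBar M) = 1 ∧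
          v'.restrictAlong φ hφ = P₀) ∨
        ((v'.restrictAlong φ hφ).ord (w : modularFunctionFieldBar M) = 0 ∧
          v'.restrictAlong φ hφ ≠ P₀) := by
    intro cen hrel v' hv'
    obtain ⟨hP', hP'Q⟩ := hrel v' hv'
    rw [hwcoe]
    exact mrf_zero_pattern M A hpM hA hc Q t₀ ht₀ hord P₀ hP₀ hP₀Q β hβ _ hP' hP'Q
  have hQ₁ : 1 ≤ Q.ord (red₁ ⟨φ (w : modularFunctionFieldBar M), hy⟩) := by
    rw [hred₁ _ w.2]
    have : (⟨(w : modularFunctionFieldBar M), w.2⟩ : ↥(grdO M A)) = w := rfl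
    rw [this, hwred, hord]
  have hQ₂ : (p : ℤ) ≤ Q₂.ord (red₂ ⟨φ (w : modularFunctionFieldBar M), hy⟩) := by
    rw [hred₂ _ w.2]
    have : (⟨(w : modularFunctionFieldBar M), w.2⟩ : ↥(grdO M A)) = w := rfl
    rw [this, hwred, hord, mul_one]
  have hcount := mrf_count A φ hφ hFI hdeg hn h₁ h₂ hdisj (w : modularFunctionFieldBar M) hw0
    P₀ (hdeg₀ P₀) hy hyi (hz cen₁ hrel₁) (hz cen₂ hrel₂) hQ₁ hQ₂
  obtain ⟨he, huniq⟩ := hcount v hv rfl
  refine ⟨(β : Qb), hβm, (ttrp_val_res φ hφ v _ _).mp hβ, ?_, ?_⟩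
  · rw [← hφw, Place.ord_restrictAlong φ hφ v, he]
    rcases hz cen₁ hrel₁ v hv with ⟨h1, -⟩ | ⟨-, h2⟩
    · rw [h1]; norm_num
    · exact absurd rfl h2
  · intro v' hv' hne
    rw [← hφw, Place.ord_restrictAlong φ hφ v']
    rcases hz cen₁ hrel₁ v' hv' with ⟨-, h2⟩ | ⟨h1, -⟩
    · exact absurd (huniq v' hv' h2) hne
    · rw [h1, mul_zero]

end Core

end Fermat.Agent.MR
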