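/-
(MR) block `mrf` (the two-sided pole count at the smooth points, owner helper23), sub-leaf
(FROB-PLACE) (prefix `mrfp`, helper18) : THE FROBENIUS TWIST OF A PLACE OF `F_k(M)`.

`k = 𝔸/𝔪` (algebraically closed of characteristic `p`), `F_k(M) = modularFunctionFieldFullC k M`,
`Φ = ttrPhi M 𝔸 h𝔸 : F_k(M) → F_k(M)`, `g(q) ↦ g(q^p)`.

* `mrfpBar k N τ` : the coefficientwise action of a ring automorphism `τ` of `k`, as a
  `SemilinearAut k F_k(N)`;
* `mrfp_phi_bar` : `Φ (ψ_* h) = h ^ p`, `ψ` the Frobenius automorphism of `k`;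
* `mrfp_phi_eq` : `Φ g = ψ_*⁻¹ (g ^ p)`;
* **`mrfp_frob_place`** : for every place `Q` of `F_k(M)` there is a place `Q₂` with
  `ord_{Q₂} (Φ g) = p · ord_Q g` for all `g`  (`Q₂ = ψ_*⁻¹ Q`);
* `mrfp_frob_place_val` : moreover `Φ g` is regular at `Q₂` iff `g` is regular at `Q`.
-/
import Mathlib
import Fermat.Agent.TT.Red2.V1
import Fermat.Agent.S18.Core.Descend
import Fermat.Agent.G.Conj.Formal

set_option autoImplicit false
set_option linter.unusedSectionVars false
set_option linter.unusedVariables false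
set_option linter.style.haveILetI false
set_option synthInstance.maxHeartbeats 400000

noncomputable section

namespace Fermat.Agent.MR

open ModularCurve AlgebraicCurve IsLocalRing Fermat.Agent.G Fermat.Agent.S18 Fermat.Agent.SS
  Fermat.Agent.TT

local notation "Qb" => AlgebraicClosure ℚ

/-! ### the coefficientwise action of an automorphism of the constants -/

section Bar

variable (k : Type*) [Field k] (N : ℕ)

/-- the coefficientwise action of a ring endomorphism of `k` on `F_k(N)` -/
def mrfpHom (τ : k →+* k) : modularFunctionFieldFullC k N →+* modularFunctionFieldFullC k N where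
  toFun x := ⟨coeffMap τ (x : LaurentSeries k), s18dd_coeffMap_mem_full τ N x.2⟩
  map_one' := Subtype.ext (map_one _)
  map_mul' x y := Subtype.ext (map_mul _ _ _)
  map_zero' := Subtype.ext (map_zero _)
  map_add' x y := Subtype.ext (map_add _ _ _)

theorem mrfpHom_coe (τ : k →+* k) (x : modularFunctionFieldFullC k N) :
    ((mrfpHom k N τ x : modularFunctionFieldFullC k N) : LaurentSeries k) =
      coeffMap τ (x : LaurentSeries k) := rfl

theorem mrfpHom_comp (σ τ : k →+* k) (x : modularFunctionFieldFullC k N) :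
    mrfpHom k N σ (mrfpHom k N τ x) = mrfpHom k N (σ.comp τ) x := by
  apply Subtype.ext
  rw [mrfpHom_coe, mrfpHom_coe, mrfpHom_coe, coeffMap_coeffMap]

theorem mrfpHom_id (x : modularFunctionFieldFullC k N) : mrfpHom k N (RingHom.id k) x = x := by
  apply Subtype.ext
  rw [mrfpHom_coe, coeffMap_id]

/-- the coefficientwise action of a ring automorphism of `k`, as a ring automorphism of `F_k(N)` -/
def mrfpEquiv (τ : k ≃+* k) : modularFunctionFieldFullC k N ≃+* modularFunctionFieldFullC k N where
  toFun := mrfpHom k N (τ : k →+* k)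
  invFun := mrfpHom k N (τ.symm : k →+* k)
  left_inv x := by
    rw [mrfpHom_comp]
    have h : ((τ.symm : k →+* k)).comp (τ : k →+* k) = RingHom.id k :=
      RingHom.ext fun c => τ.symm_apply_apply c
    rw [h, mrfpHom_id]
  right_inv x := by
    rw [mrfpHom_comp]
    have h : ((τ : k →+* k)).comp (τ.symm : k →+* k) = RingHom.id k :=
      RingHom.ext fun c => τ.apply_symm_apply c
    rw [h, mrfpHom_id]
  map_mul' := map_mul _
  map_add' := map_add _

/-- **the coefficientwise semilinear automorphism `τ_*` of `F_k(N) / k`** -/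
def mrfpBar (τ : k ≃+* k) : SemilinearAut k (modularFunctionFieldFullC k N) :=
  ⟨(mrfpEquiv k N τ, τ), fun c => by
    apply Subtype.ext
    show coeffMap (τ : k →+* k) (algebraMap k (LaurentSeries k) c) =
      algebraMap k (LaurentSeries k) (τ c)
    exact coeffMap_algebraMap (τ : k →+* k) c⟩

theorem mrfpBar_baseAut (τ : k ≃+* k) : SemilinearAut.baseAut (mrfpBar k N τ) = τ := rfl

theorem mrfpBar_coe (τ : k ≃+* k) (x : modularFunctionFieldFullC k N) :
    ((mrfpBar k N τ • x : modularFunctionFieldFullC k N) : LaurentSeries k) =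
      coeffMap (τ : k →+* k) (x : LaurentSeries k) := rfl

end Bar

/-! ### the Frobenius twist -/

section Frob

variable (M : ℕ) [NeZero M] {p : ℕ} [Fact p.Prime] [NeZero p] (A : ValuationSubring Qb)

/-- the residue field is perfect -/
theorem mrfp_perfectRing (hA : A.LiesOverPrime p) :
    haveI := ttr_charP A hA
    PerfectRing (ResidueField A) p := by
  haveI := ttr_charP A hA
  haveI : IsAlgClosed (ResidueField A) := grd_isAlgClosed_residue A
  exact PerfectField.toPerfectRing p

/-- the Frobenius automorphism of `k = 𝔸/𝔪` -/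
def mrfpPsi (hA : A.LiesOverPrime p) : ResidueField A ≃+* ResidueField A :=
  haveI := ttr_charP A hA
  haveI := mrfp_perfectRing A hA
  frobeniusEquiv (ResidueField A) p

theorem mrfpPsi_coe (hA : A.LiesOverPrime p) :
    haveI := ttr_charP A hA
    ((mrfpPsi A hA : ResidueField A ≃+* ResidueField A) : ResidueField A →+* ResidueField A) =
      frobenius (ResidueField A) p := by
  haveI := ttr_charP A hA
  haveI := mrfp_perfectRing A hA
  exact RingHom.ext fun c => congrFun (coe_frobeniusEquiv (ResidueField A) p) c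

/-- **`Φ (ψ_* h) = h ^ p`** -/
theorem mrfp_phi_bar (hA : A.LiesOverPrime p)
    (h : modularFunctionFieldFullC (ResidueField A) M) :
    ttrPhi M A hA (mrfpBar (ResidueField A) M (mrfpPsi A hA) • h) = h ^ p := by
  haveI := ttr_charP A hA
  apply Subtype.ext
  rw [ttrPhi_coe, mrfpBar_coe, mrfpPsi_coe, SubmonoidClass.coe_pow]
  exact (gcjf_pow_char (ResidueField A) p (h : LaurentSeries (ResidueField A))).symm

/-- **`Φ g = ψ_*⁻¹ (g ^ p)`** -/
theorem mrfp_phi_eq (hA : A.LiesOverPrime p)
    (g : modularFunctionFieldFullC (ResidueField A) M) :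
    ttrPhi M A hA g = (mrfpBar (ResidueField A) M (mrfpPsi A hA))⁻¹ • (g ^ p) := by
  have h := mrfp_phi_bar M A hA ((mrfpBar (ResidueField A) M (mrfpPsi A hA))⁻¹ • g)
  rw [smul_inv_smul] at h
  rw [h, smul_pow']

/-- **(FROB-PLACE)** : for every place `Q` of `F_k(M)` there is a place `Q₂` with
`ord_{Q₂} (Φ g) = p · ord_Q g` for all `g`. -/
theorem mrfp_frob_place (hA : A.LiesOverPrime p)
    (Q : Place (ResidueField A) (modularFunctionFieldFullC (ResidueField A) M)) :
    ∃ Q2 : Place (ResidueField A) (modularFunctionFieldFullC (ResidueField A) M),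
      ∀ g, Q2.ord (ttrPhi M A hA g) = (p : ℤ) * Q.ord g := by
  refine ⟨(mrfpBar (ResidueField A) M (mrfpPsi A hA))⁻¹ • Q, fun g => ?_⟩
  rw [mrfp_phi_eq, SemilinearAut.ord_smul, ← zpow_natCast, Place.ord_zpow]

/-- the same place : `Φ g` is regular at `Q₂` iff `g` is regular at `Q` (and the explicit `Q₂`). -/
theorem mrfp_frob_place_mem (hA : A.LiesOverPrime p)
    (Q : Place (ResidueField A) (modularFunctionFieldFullC (ResidueField A) M)) :
    ∃ Q2 : Place (ResidueField A) (modularFunctionFieldFullC (ResidueField A) M),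
      (∀ g, Q2.ord (ttrPhi M A hA g) = (p : ℤ) * Q.ord g) ∧
      (∀ g, ttrPhi M A hA g ∈ Q2.toValuationSubring ↔ g ∈ Q.toValuationSubring) ∧
      Q2 = (mrfpBar (ResidueField A) M (mrfpPsi A hA))⁻¹ • Q := by
  obtain ⟨Q2, hQ2⟩ : ∃ Q2 : Place (ResidueField A) (modularFunctionFieldFullC (ResidueField A) M),
      Q2 = (mrfpBar (ResidueField A) M (mrfpPsi A hA))⁻¹ • Q := ⟨_, rfl⟩
  have hord : ∀ g, Q2.ord (ttrPhi M A hA g) = (p : ℤ) * Q.ord g := by
    intro g
    rw [hQ2, mrfp_phi_eq, SemilinearAut.ord_smul, ← zpow_natCast, Place.ord_zpow]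
  refine ⟨Q2, hord, fun g => ?_, hQ2⟩
  rcases eq_or_ne g 0 with rfl | hg
  · rw [map_zero]
    exact ⟨fun _ => zero_mem _, fun _ => zero_mem _⟩
  have hΦ : ttrPhi M A hA g ≠ 0 := (map_ne_zero_iff _ (ttrPhi M A hA).injective).mpr hg
  have hp : (0 : ℤ) < (p : ℤ) := by exact_mod_cast (Fact.out : p.Prime).pos
  rw [Fermat.Agent.S24.PlaceOrd.mem_iff_ord_nonneg Q2 hΦ,
    Fermat.Agent.S24.PlaceOrd.mem_iff_ord_nonneg Q hg, hord g]
  exact mul_nonneg_iff_of_pos_left hp

end Frob

end Fermat.Agent.MR
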