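import Mathlib
import Fermat.Agent.MR.False.Core
import Fermat.Agent.MR.False.FrobPlace
import Fermat.Agent.TT.Red2.IntoInst
import Fermat.Agent.TT.Red2.NodeGauss
import Fermat.Agent.G.Lvl.Finrank
import Fermat.Agent.S35.AuxNew.Final

/-!
# PROGRAM MR (S44), block `mrf` = FALSE NODES : the disc coordinate at level `M p`, chart form

Owner: helper23.  Prefix `mrf`.  Namespace `Fermat.Agent.MR`.

`mrf_disc_core` at the degeneracy map `α` (first component) : `hc : GrdChart M 𝔸 υ` a chart of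
level `M`, `Q` a place of `F_k(M)` of the chart, `Q₂` its Frobenius twist (`ord_{Q₂} (Φ g) =
p ord_Q g`, helper18 `mrfp_frob_place`).  Chart-level hypotheses, discharged in `Count.lean` :
* `hdisj` : the disc of `Q` on the first component and the disc of `Q₂` on the second component
  are disjoint (`Q` is not a node);
* `hCH` : the places of the disc of `Q₂` lie in the `α`-chart.
-/

set_option autoImplicit false
set_option linter.unusedSectionVars false
set_option linter.unusedVariables false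
set_option linter.style.haveILetI false
set_option synthInstance.maxHeartbeats 400000

noncomputable section

namespace Fermat.Agent.MR

open ModularCurve AlgebraicCurve IsLocalRing Polynomial Fermat.Agent.S18
  Fermat.Agent.S24 Fermat.Agent.G Fermat.Agent.FF Fermat.Agent.TT

local notation "Qb" => AlgebraicClosure ℚ

set_option synthInstance.maxHeartbeats 800000 in
/-- instance shortcut (the generic search through `ResidueField` is very slow). -/
local instance mrfInstF (A : ValuationSubring Qb) (M : ℕ) [NeZero M] :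
    Field ↥(modularFunctionFieldFullC (ResidueField A) M) := inferInstance

set_option synthInstance.maxHeartbeats 800000 in
/-- instance shortcut (the generic search through `ResidueField` is very slow). -/
local instance mrfInstA (A : ValuationSubring Qb) (M : ℕ) [NeZero M] :
    Algebra (ResidueField A) ↥(modularFunctionFieldFullC (ResidueField A) M) := inferInstance

variable (M : ℕ) [NeZero M] {p : ℕ} [Fact p.Prime] [NeZero p]
variable (A : ValuationSubring Qb)

/-- value compatibility through the Frobenius twist of places. -/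
theorem mrf_val_of_phi (hA : A.LiesOverPrime p)
    (Q Q₂ : Place (ResidueField A) (modularFunctionFieldFullC (ResidueField A) M))
    (hFr : ∀ g, Q₂.ord (ttrPhi M A hA g) = (p : ℤ) * Q.ord g)
    (g : modularFunctionFieldFullC (ResidueField A) M) (c : ResidueField A)
    (h : GrdVal Q₂ (ttrPhi M A hA g) c) : GrdVal Q g c := by
  have hp : p.Prime := Fact.out
  rw [← grds_val_sub_iff] at h ⊢
  have e : ttrPhi M A hA g - algebraMap (ResidueField A) _ c =
      ttrPhi M A hA (g - algebraMap (ResidueField A) _ c) := by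
    rw [map_sub, ttrt_phi_const]
  rw [e] at h
  by_cases h0 : g - algebraMap (ResidueField A) _ c = 0
  · rw [h0]
    exact grds_val_zero_zero Q
  · have h1 : ttrPhi M A hA (g - algebraMap (ResidueField A) _ c) ≠ 0 := fun h2 =>
      h0 ((map_eq_zero_iff (ttrPhi M A hA) (ttrPhi M A hA).injective).mp h2)
    rw [grdg_val_zero_iff_ord Q₂ h1, hFr] at h
    rw [grdg_val_zero_iff_ord Q h0]
    have hp0 : (0 : ℤ) < p := by exact_mod_cast hp.pos
    by_contra hneg
    have : (p : ℤ) * Q.ord (g - algebraMap (ResidueField A) _ c) ≤ 0 :=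
      mul_nonpos_of_nonneg_of_nonpos hp0.le (not_lt.mp hneg)
    omega

variable {υ : LaurentSeries ℤ}

/-- **the disc of the Frobenius twist `Q₂` (second component) lies, through `α`, over the level-`M`
disc of `Q`.** -/
theorem mrf_rel₂ (hpM : ¬ p ∣ M) (hA : A.LiesOverPrime p) (hc : GrdChart M A υ)
    (Q Q₂ : Place (ResidueField A) (modularFunctionFieldFullC (ResidueField A) M))
    (hQ₂ : grdK M A hc.mem ∈ Q₂.toValuationSubring)
    (hFr : ∀ g, Q₂.ord (ttrPhi M A hA g) = (p : ℤ) * Q.ord g)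
    (hCH : ∀ v, ttrglCenC₂ M A hpM hA hc Q₂ v →
      GrdInChart (M * p) A (heckeAlphaBar Qb M p (grdQ M hc.mem)) v)
    (v : Place Qb (modularFunctionFieldBar (M * p)))
    (hv : ttrglCenC₂ M A hpM hA hc Q₂ v) :
    GrdInChart M A (grdQ M hc.mem)
        (v.restrictAlong (heckeAlphaBar Qb M p) (gff_alpha_integral M p)) ∧
      GrdRel M A (grdQ M hc.mem)
        (v.restrictAlong (heckeAlphaBar Qb M p) (gff_alpha_integral M p)) Q := by
  refine ⟨(ttrp_inChart_res (gff_alpha_integral M p) _ v).mpr (hCH v hv), ?_⟩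
  intro x hx hxint a ha
  have hφx : heckeAlphaBar Qb M p x ∈
      grdB (M * p) A (heckeAlphaBar Qb M p (grdQ M hc.mem)) :=
    ttrp_isInt_map M p A (heckeAlphaBar Qb M p) _ _ hxint
  have hxO : heckeAlphaBar Qb M p x ∈ ttrglO2 M A hpM hA := ttrgl_le₁ M A hpM hA hc hφx
  have hreg : ∀ v', ttrglCenC₂ M A hpM hA hc Q₂ v' →
      heckeAlphaBar Qb M p x ∈ v'.toValuationSubring := by
    intro v' hv'
    obtain ⟨b, hb⟩ := hCH v' hv'
    exact ttrli_breg (M * p) A _ _ hφx v' (grdg_val_mem v' hb)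
  obtain ⟨a', ha'v, ha'Q⟩ := (ttrgl_pkC₂ M A hpM hA hc Q₂ hQ₂).val_ext hxO hreg hv
  have hPx : GrdVal v (heckeAlphaBar Qb M p x) (a : Qb) :=
    (ttrp_val_res (heckeAlphaBar Qb M p) (gff_alpha_integral M p) v _ _).mp ha
  have h1 : (a : Qb) = a' := grdg_val_unique v hPx ha'v
  have h2 : a = a' := Subtype.ext h1
  have h3 : ttrglRed₂ M A hpM hA ⟨heckeAlphaBar Qb M p x, hxO⟩ =
      ttrPhi M A hA (grdRed M A ⟨x, hx⟩) := ttrRed2_alpha M A hpM hA ⟨x, hx⟩
  rw [h3, ← h2] at ha'Q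
  exact mrf_val_of_phi M A hA Q Q₂ hFr _ _ ha'Q

/-- **THE DISC COORDINATE ON THE FIRST COMPONENT, chart form.**  `t = α t₀`. -/
theorem mrf_disc₁_chart (hpM : ¬ p ∣ M) (hA : A.LiesOverPrime p) (hc : GrdChart M A υ)
    (Q Q₂ : Place (ResidueField A) (modularFunctionFieldFullC (ResidueField A) M))
    (hQ : grdK M A hc.mem ∈ Q.toValuationSubring)
    (hQ₂ : grdK M A hc.mem ∈ Q₂.toValuationSubring)
    (hFr : ∀ g, Q₂.ord (ttrPhi M A hA g) = (p : ℤ) * Q.ord g)
    (hdisj : ∀ v, ttrglCenC₁ M A hpM hA hc Q v → ttrglCenC₂ M A hpM hA hc Q₂ v → False)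
    (hCH : ∀ v, ttrglCenC₂ M A hpM hA hc Q₂ v →
      GrdInChart (M * p) A (heckeAlphaBar Qb M p (grdQ M hc.mem)) v)
    (t₀ : ↥(grdO M A)) (ht₀ : GrdIsInt M A (grdQ M hc.mem) (t₀ : modularFunctionFieldBar M))
    (hord : Q.ord (grdRed M A t₀) = 1) :
    ∀ v, ttrglCenC₁ M A hpM hA hc Q v → ∃ c : Qb, c ∈ A.nonunits ∧
      GrdVal v (heckeAlphaBar Qb M p (t₀ : modularFunctionFieldBar M)) c ∧
      v.ord (heckeAlphaBar Qb M p (t₀ : modularFunctionFieldBar M) -
        algebraMap Qb (modularFunctionFieldBar (M * p)) c) = 1 ∧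
      ∀ v', ttrglCenC₁ M A hpM hA hc Q v' → v' ≠ v →
        v'.ord (heckeAlphaBar Qb M p (t₀ : modularFunctionFieldBar M) -
          algebraMap Qb (modularFunctionFieldBar (M * p)) c) = 0 := by
  have hp : p.Prime := Fact.out
  haveI : HasPrincipalDivisors Qb (modularFunctionFieldBar (M * p)) :=
    gff_hasPrincipalDivisors (M * p)
  refine mrf_disc_core M A hpM hA hc (heckeAlphaBar Qb M p) (gff_alpha_integral M p)
    (gffa_along_fundamentalIdentity _ (gff_alpha_finite M p) _ (isSepGen_jBar (N := M)))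
    (fun v => (isSepGen_jBar (N := M * p)).deg_eq_one v)
    (fun v => (isSepGen_jBar (N := M)).deg_eq_one v)
    (glv_finrank M p hp hpM) Q Q₂
    (ttrgl_pkC₁ M A hpM hA hc Q hQ) (ttrgl_pkC₂ M A hpM hA hc Q₂ hQ₂) hdisj
    (fun y hy => ttr_alpha_mem_O2 M A hpM hy)
    (fun y hy => ttrRed1_alpha M A hA ⟨y, hy⟩)
    (fun y hy => ?_) (fun v hv => ?_) (fun v hv => mrf_rel₂ M A hpM hA hc Q Q₂ hQ₂ hFr hCH v hv)
    t₀ ht₀ hord
  · have h3 : ttrglRed₂ M A hpM hA ⟨heckeAlphaBar Qb M p y, ttr_alpha_mem_O2 M A hpM hy⟩ =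
        ttrPhi M A hA (grdRed M A ⟨y, hy⟩) := ttrRed2_alpha M A hpM hA ⟨y, hy⟩
    rw [h3, hFr]
  · exact ⟨ttrgl_res_inChart (gff_alpha_integral M p) _ v hv,
      ttrgl_rel_of_cen (gff_alpha_integral M p) (ttrgl_chart₁ M A hpM hA hc)
        (ttrglO2 M A hpM hA) (show ttrglO2 M A hpM hA ≤ grdO (M * p) A from inf_le_left)
        (ttrgl_le₁ M A hpM hA hc) (ttrglRed₁ M A hpM hA) (fun x hx => rfl) Q
        (ttrgl_valQ₁ M A hpM hA hc Q hQ) v hv⟩

/-- **the disc of the Frobenius twist `Q₁` (first component) lies, through `β`, over the level-`M`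
disc of `Q`.** -/
theorem mrf_rel₁ (hpM : ¬ p ∣ M) (hA : A.LiesOverPrime p) (hc : GrdChart M A υ)
    (Q Q₁ : Place (ResidueField A) (modularFunctionFieldFullC (ResidueField A) M))
    (hQ₁ : grdK M A hc.mem ∈ Q₁.toValuationSubring)
    (hFr : ∀ g, Q₁.ord (ttrPhi M A hA g) = (p : ℤ) * Q.ord g)
    (hCH : ∀ v, ttrglCenC₁ M A hpM hA hc Q₁ v →
      GrdInChart (M * p) A (heckeBetaBar Qb M p (grdQ M hc.mem)) v)
    (v : Place Qb (modularFunctionFieldBar (M * p)))
    (hv : ttrglCenC₁ M A hpM hA hc Q₁ v) :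
    GrdInChart M A (grdQ M hc.mem)
        (v.restrictAlong (heckeBetaBar Qb M p) (gff_beta_integral M p)) ∧
      GrdRel M A (grdQ M hc.mem)
        (v.restrictAlong (heckeBetaBar Qb M p) (gff_beta_integral M p)) Q := by
  refine ⟨(ttrp_inChart_res (gff_beta_integral M p) _ v).mpr (hCH v hv), ?_⟩
  intro x hx hxint a ha
  have hφx : heckeBetaBar Qb M p x ∈
      grdB (M * p) A (heckeBetaBar Qb M p (grdQ M hc.mem)) :=
    ttrp_isInt_map M p A (heckeBetaBar Qb M p) _ _ hxint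
  have hxO : heckeBetaBar Qb M p x ∈ ttrglO2 M A hpM hA := ttrgl_le₂ M A hpM hA hc hφx
  have hreg : ∀ v', ttrglCenC₁ M A hpM hA hc Q₁ v' →
      heckeBetaBar Qb M p x ∈ v'.toValuationSubring := by
    intro v' hv'
    obtain ⟨b, hb⟩ := hCH v' hv'
    exact ttrli_breg (M * p) A _ _ hφx v' (grdg_val_mem v' hb)
  obtain ⟨a', ha'v, ha'Q⟩ := (ttrgl_pkC₁ M A hpM hA hc Q₁ hQ₁).val_ext hxO hreg hv
  have hPx : GrdVal v (heckeBetaBar Qb M p x) (a : Qb) :=
    (ttrp_val_res (heckeBetaBar Qb M p) (gff_beta_integral M p) v _ _).mp ha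
  have h1 : (a : Qb) = a' := grdg_val_unique v hPx ha'v
  have h2 : a = a' := Subtype.ext h1
  have h3 : ttrglRed₁ M A hpM hA ⟨heckeBetaBar Qb M p x, hxO⟩ =
      ttrPhi M A hA (grdRed M A ⟨x, hx⟩) := ttrRed1_beta M A hA ⟨x, hx⟩
  rw [h3, ← h2] at ha'Q
  exact mrf_val_of_phi M A hA Q Q₁ hFr _ _ ha'Q

/-- **THE DISC COORDINATE ON THE SECOND COMPONENT, chart form.**  `t = β t₀`. -/
theorem mrf_disc₂_chart (hpM : ¬ p ∣ M) (hA : A.LiesOverPrime p) (hc : GrdChart M A υ)
    (Q Q₁ : Place (ResidueField A) (modularFunctionFieldFullC (ResidueField A) M))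
    (hQ : grdK M A hc.mem ∈ Q.toValuationSubring)
    (hQ₁ : grdK M A hc.mem ∈ Q₁.toValuationSubring)
    (hFr : ∀ g, Q₁.ord (ttrPhi M A hA g) = (p : ℤ) * Q.ord g)
    (hdisj : ∀ v, ttrglCenC₂ M A hpM hA hc Q v → ttrglCenC₁ M A hpM hA hc Q₁ v → False)
    (hCH : ∀ v, ttrglCenC₁ M A hpM hA hc Q₁ v →
      GrdInChart (M * p) A (heckeBetaBar Qb M p (grdQ M hc.mem)) v)
    (t₀ : ↥(grdO M A)) (ht₀ : GrdIsInt M A (grdQ M hc.mem) (t₀ : modularFunctionFieldBar M))
    (hord : Q.ord (grdRed M A t₀) = 1) :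
    ∀ v, ttrglCenC₂ M A hpM hA hc Q v → ∃ c : Qb, c ∈ A.nonunits ∧
      GrdVal v (heckeBetaBar Qb M p (t₀ : modularFunctionFieldBar M)) c ∧
      v.ord (heckeBetaBar Qb M p (t₀ : modularFunctionFieldBar M) -
        algebraMap Qb (modularFunctionFieldBar (M * p)) c) = 1 ∧
      ∀ v', ttrglCenC₂ M A hpM hA hc Q v' → v' ≠ v →
        v'.ord (heckeBetaBar Qb M p (t₀ : modularFunctionFieldBar M) -
          algebraMap Qb (modularFunctionFieldBar (M * p)) c) = 0 := by
  have hp : p.Prime := Fact.out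
  haveI : HasPrincipalDivisors Qb (modularFunctionFieldBar (M * p)) :=
    gff_hasPrincipalDivisors (M * p)
  refine mrf_disc_core M A hpM hA hc (heckeBetaBar Qb M p) (gff_beta_integral M p)
    (gffa_along_fundamentalIdentity _ (gff_beta_finite M p) _ (isSepGen_jBar (N := M)))
    (fun v => (isSepGen_jBar (N := M * p)).deg_eq_one v)
    (fun v => (isSepGen_jBar (N := M)).deg_eq_one v)
    (s35e_beta_finrank M p hp hpM) Q Q₁
    (ttrgl_pkC₂ M A hpM hA hc Q hQ) (ttrgl_pkC₁ M A hpM hA hc Q₁ hQ₁) hdisj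
    (fun y hy => ttr_beta_mem_O2 M A hpM hy)
    (fun y hy => ttrRed2_beta M A hpM hA ⟨y, hy⟩)
    (fun y hy => ?_) (fun v hv => ?_) (fun v hv => mrf_rel₁ M A hpM hA hc Q Q₁ hQ₁ hFr hCH v hv)
    t₀ ht₀ hord
  · have h3 : ttrglRed₁ M A hpM hA ⟨heckeBetaBar Qb M p y, ttr_beta_mem_O2 M A hpM hy⟩ =
        ttrPhi M A hA (grdRed M A ⟨y, hy⟩) := ttrRed1_beta M A hA ⟨y, hy⟩
    rw [h3, hFr]
  · exact ⟨ttrgl_res_inChart (gff_beta_integral M p) _ v hv,
      ttrgl_rel_of_cen (gff_beta_integral M p) (ttrgl_chart₂ M A hpM hA hc)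
        (ttrglO2 M A hpM hA) (show ttrglO2 M A hpM hA ≤ ttrV2 M A hpM from inf_le_right)
        (ttrgl_le₂ M A hpM hA hc) (ttrglRed₂ M A hpM hA) (fun x hx => rfl) Q
        (ttrgl_valQ₂ M A hpM hA hc Q hQ) v hv⟩

end Fermat.Agent.MR
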