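import Mathlib
import Fermat.Agent.MR.False.Inst
import Fermat.Agent.MR.Node.Spec
import Fermat.Agent.TT.Alpha.Cross
import Fermat.Agent.G.Asm.HeckeGalois

/-!
# PROGRAM MR (S44), block `mrf` = FALSE NODES : `MrnDisc₁Spec`, `MrnDisc₂Spec` (helper19's literals)

Owner: helper23.  Prefix `mrf`.  Namespace `Fermat.Agent.MR`.

At EVERY closed point `Q` of a component which is not a branch of a canonical node (cusps, elliptic
points, the ordinary `𝔽_{p²}`-points = "false nodes" included) : an `I`-invariant coordinate `t` of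
the residue disc of `Q` : `t = α t₀` (first component), `t = β t₀` (second component), `t₀` an
inertia-fixed level-`M` lift of a uniformiser at `Q` in the chart ring (`MrfParamC`, proved in
`Param.lean`).  One-zero on the disc = the two-sided POLE count (`CountAbs.lean`) through the chart
forms `mrf_disc₁_chart`, `mrf_disc₂_chart` (`Inst.lean`); the chart-level inputs `hdisj`, `hCH` are
discharged here from `hbe : β τ ∈ B(α τ)` (Kronecker; landed for the `j`-atlas) and the cusp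
statement (N-C) `hNC` (landed for the `j`-atlas : `ttrkJ_NC`).
-/

set_option autoImplicit false
set_option linter.unusedSectionVars false
set_option linter.unusedVariables false
set_option linter.style.haveILetI false
set_option synthInstance.maxHeartbeats 400000

noncomputable section

namespace Fermat.Agent.MR

open ModularCurve AlgebraicCurve IsLocalRing Polynomial Fermat.Agent.S18
  Fermat.Agent.S24 Fermat.Agent.G Fermat.Agent.FF Fermat.Agent.TT

open scoped Classical

local notation "Qb" => AlgebraicClosure ℚ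

set_option synthInstance.maxHeartbeats 800000 in
/-- instance shortcut (the generic search through `ResidueField` is very slow). -/
local instance mrfInstF' (A : ValuationSubring Qb) (M : ℕ) [NeZero M] :
    Field ↥(modularFunctionFieldFullC (ResidueField A) M) := inferInstance

set_option synthInstance.maxHeartbeats 800000 in
/-- instance shortcut (the generic search through `ResidueField` is very slow). -/
local instance mrfInstA' (A : ValuationSubring Qb) (M : ℕ) [NeZero M] :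
    Algebra (ResidueField A) ↥(modularFunctionFieldFullC (ResidueField A) M) := inferInstance

variable (M : ℕ) [NeZero M] {p : ℕ} [Fact p.Prime] [NeZero p]
variable (A : ValuationSubring Qb)

/-! ### the Frobenius twist of places and the charts -/

/-- `Φ ῡ = ῡ ^ p` for a chart coordinate (integer coefficients). -/
theorem mrf_phi_grdK (hA : A.LiesOverPrime p) {υ : LaurentSeries ℤ} (hυ : GrdSerMem M υ) :
    ttrPhi M A hA (grdK M A hυ) = grdK M A hυ ^ p := by
  haveI := ttr_charP A hA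
  apply Subtype.ext
  rw [ttrPhi_coe]
  show qExpand (ResidueField A) p (grdSer υ (ResidueField A)) = grdSer υ (ResidueField A) ^ p
  rw [gcjf_pow_char (ResidueField A) p, grdSer_coeffMap]

/-- the Frobenius twist of a place of the chart lies in the chart (and conversely). -/
theorem mrf_chart_twist (hA : A.LiesOverPrime p) {υ : LaurentSeries ℤ} (hυ : GrdSerMem M υ)
    (Q Q₂ : Place (ResidueField A) (modularFunctionFieldFullC (ResidueField A) M))
    (hFr : ∀ g, Q₂.ord (ttrPhi M A hA g) = (p : ℤ) * Q.ord g) :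
    grdK M A hυ ∈ Q₂.toValuationSubring ↔ grdK M A hυ ∈ Q.toValuationSubring := by
  have hp : p.Prime := Fact.out
  have hp0 : (0 : ℤ) < p := by exact_mod_cast hp.pos
  by_cases h0 : grdK M A hυ = 0
  · rw [h0]
    exact ⟨fun _ => zero_mem _, fun _ => zero_mem _⟩
  · have h1 := hFr (grdK M A hυ)
    rw [mrf_phi_grdK M A hA hυ, ttri_ord_pow] at h1
    have h2 : Q₂.ord (grdK M A hυ) = Q.ord (grdK M A hυ) :=
      mul_left_cancel₀ (ne_of_gt hp0) h1
    rw [grdg_mem_iff_ord Q₂ h0, grdg_mem_iff_ord Q h0, h2]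

/-! ### the two charts cover, at any level -/

/-- `u(v) ∈ 𝔸` or `u'(v) ∈ 𝔪_𝔸`, for `u u' = 1`. -/
theorem mrf_cover (N : ℕ) [NeZero N] (u u' : modularFunctionFieldBar N) (huu' : u * u' = 1)
    (v : Place Qb (modularFunctionFieldBar N)) :
    (∃ a : A, GrdVal v u (a : Qb)) ∨
      ∃ a : A, a ∈ maximalIdeal A ∧ GrdVal v u' (a : Qb) := by
  have hu' : u' = u⁻¹ := eq_inv_of_mul_eq_one_right huu'
  by_cases hmem : u ∈ v.toValuationSubring
  · obtain ⟨b, hb⟩ := ttrli_res N v u hmem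
    by_cases hbA : b ∈ A
    · exact Or.inl ⟨⟨b, hbA⟩, hb⟩
    · have hb0 : b ≠ 0 := by
        rintro rfl
        exact hbA A.zero_mem
      obtain ⟨h1, h2⟩ := grda_inv_mem_maximalIdeal A hbA
      refine Or.inr ⟨⟨b⁻¹, h1⟩, h2, ?_⟩
      rw [hu']
      exact grda_val_inv v hb hb0
  · refine Or.inr ⟨0, Ideal.zero_mem _, ?_⟩
    rw [ZeroMemClass.coe_zero, grdg_val_zero_iff, hu', ValuationSubring.inv_mem_nonunits_iff]
    exact Or.inr hmem

/-! ### the level-`M` input -/

/-- **the level-`M` input** : at every place `Q` of the chart an inertia-fixed element of the chart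
ring reducing to a uniformiser at `Q` (proved in `Param.lean`). -/
def MrfParamC {υ : LaurentSeries ℤ} (hc : GrdChart M A υ) : Prop :=
  ∀ Q : Place (ResidueField A) (modularFunctionFieldFullC (ResidueField A) M),
    grdK M A hc.mem ∈ Q.toValuationSubring →
    ∃ t₀ : ↥(grdO M A), GrdIsInt M A (grdQ M hc.mem) (t₀ : modularFunctionFieldBar M) ∧
      Q.ord (grdRed M A t₀) = 1 ∧
      ∀ σ : ↥(ffI A), ffigRho M A σ • (t₀ : modularFunctionFieldBar M) = t₀

/-! ### the first component -/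

section Disc

variable {τ τ' : LaurentSeries ℤ}

/-- **`MrnDisc₁Spec`** : the `I`-invariant disc coordinate `t = α t₀` at every closed point of the
first component which is not a node branch. -/
theorem mrf_disc₁ (hpM : ¬ p ∣ M) (hA : A.LiesOverPrime p) (hat : GrdAtlas M A τ τ')
    (hbe : heckeBetaBar Qb M p (grdQ M hat.c.mem) ∈
      grdB (M * p) A (heckeAlphaBar Qb M p (grdQ M hat.c.mem)))
    (hNC : ∀ 𝔫' : Ideal ↥(grdB (M * p) A (heckeAlphaBar Qb M p (grdQ M hat.c'.mem))),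
      𝔫'.IsPrime →
      (∀ x : ↥(grdB (M * p) A (heckeAlphaBar Qb M p (grdQ M hat.c'.mem))),
        (x : modularFunctionFieldBar (M * p)) ∈ (ttrV1 M A hpM hA).nonunits → x ∈ 𝔫') →
      (∀ x : ↥(grdB (M * p) A (heckeAlphaBar Qb M p (grdQ M hat.c'.mem))),
        (x : modularFunctionFieldBar (M * p)) ∈ (ttalIV2 M A hpM hA).nonunits → x ∈ 𝔫') →
      (∀ h : heckeAlphaBar Qb M p (grdQ M hat.c'.mem) ∈
          grdB (M * p) A (heckeAlphaBar Qb M p (grdQ M hat.c'.mem)),
        (⟨heckeAlphaBar Qb M p (grdQ M hat.c'.mem), h⟩ :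
          ↥(grdB (M * p) A (heckeAlphaBar Qb M p (grdQ M hat.c'.mem)))) ∈ 𝔫') → False)
    (hpar : MrfParamC M A hat.c) (hpar' : MrfParamC M A hat.c') :
    MrnDisc₁Spec M A hpM hA hat := by
  intro Q hnode
  obtain ⟨Q₂, hFr⟩ := mrfp_frob_place M A hA Q
  by_cases hQ : grdK M A hat.c.mem ∈ Q.toValuationSubring
  · -- the finite chart
    have hQ₂ : grdK M A hat.c.mem ∈ Q₂.toValuationSubring :=
      (mrf_chart_twist M A hA hat.c.mem Q Q₂ hFr).2 hQ
    obtain ⟨t₀, ht₀, hord, hfix⟩ := hpar Q hQ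
    refine ⟨heckeAlphaBar Qb M p (t₀ : modularFunctionFieldBar M),
      ttr_alpha_mem_O2 M A hpM t₀.2, fun σ => ?_, ?_, ?_⟩
    · exact (gasmhg_alpha_intertwines M p σ.1 (t₀ : modularFunctionFieldBar M)).trans
        (congrArg (heckeAlphaBar Qb M p) (hfix σ))
    · have h3 : ttrglRed₁ M A hpM hA ⟨heckeAlphaBar Qb M p (t₀ : modularFunctionFieldBar M),
          ttr_alpha_mem_O2 M A hpM t₀.2⟩ = grdRed M A t₀ := ttrRed1_alpha M A hA t₀
      rw [h3]
      exact hord
    · rw [ttrgl_cen₁_pos M A hpM hA hat Q hQ]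
      refine mrf_disc₁_chart M A hpM hA hat.c Q Q₂ hQ hQ₂ hFr (fun v hv₁ hv₂ => ?_)
        (fun v hv => ?_) t₀ ht₀ hord
      · exact hnode ⟨(Q, Q₂), hQ, hQ₂, fun b =>
          ttal_cross_ff M A hpM hA hat.c hbe Q Q₂ hQ hQ₂ v hv₁ hv₂ ⟨b.1, b.2⟩⟩ rfl
      · exact ttrli_chart (M * p) A _ v hv.1 _ (ttal_hal_of_hbe M A hpM hat.c hbe)
  · -- the chart at infinity
    have hQc : grdK M A hat.c'.mem ∈ Q.toValuationSubring := ttrgl_chartK' M A hat Q hQ
    have hQ₂n : grdK M A hat.c.mem ∉ Q₂.toValuationSubring := fun h =>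
      hQ ((mrf_chart_twist M A hA hat.c.mem Q Q₂ hFr).1 h)
    have hQ₂c : grdK M A hat.c'.mem ∈ Q₂.toValuationSubring :=
      (mrf_chart_twist M A hA hat.c'.mem Q Q₂ hFr).2 hQc
    obtain ⟨t₀, ht₀, hord, hfix⟩ := hpar' Q hQc
    refine ⟨heckeAlphaBar Qb M p (t₀ : modularFunctionFieldBar M),
      ttr_alpha_mem_O2 M A hpM t₀.2, fun σ => ?_, ?_, ?_⟩
    · exact (gasmhg_alpha_intertwines M p σ.1 (t₀ : modularFunctionFieldBar M)).trans
        (congrArg (heckeAlphaBar Qb M p) (hfix σ))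
    · have h3 : ttrglRed₁ M A hpM hA ⟨heckeAlphaBar Qb M p (t₀ : modularFunctionFieldBar M),
          ttr_alpha_mem_O2 M A hpM t₀.2⟩ = grdRed M A t₀ := ttrRed1_alpha M A hA t₀
      rw [h3]
      exact hord
    · rw [ttrgl_cen₁_neg M A hpM hA hat Q hQ]
      refine mrf_disc₁_chart M A hpM hA hat.c' Q Q₂ hQc hQ₂c hFr (fun v hv₁ hv₂ => ?_)
        (fun v hv => ?_) t₀ ht₀ hord
      · exact ttal_cross_cc M A hpM hA hat hbe hNC Q Q₂ hQ hQ₂n v hv₁ hv₂
      · -- `v` lies in the chart of `α τ'` : otherwise `α τ (v) ∈ 𝔪`, so `β τ (v) ∈ 𝔸`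
        rcases mrf_cover A (M * p) _ _ (ttal_alpha_mul_inv M A hat) v with h | ⟨a, ham, ha⟩
        · exfalso
          obtain ⟨a', ha'⟩ := ttrli_chart (M * p) A _ v h _ hbe
          have hreg' : ∀ b : ↥(grdB (M * p) A (heckeBetaBar Qb M p (grdQ M hat.c'.mem))),
              ttalRedO₂ (V₁ := ttrV1 M A hpM hA) (ttalIRed2 M A hpM hA)
                ⟨b, ttrli_le_beta M A hpM hA hat.c' b.2⟩ ∈ Q₂.toValuationSubring := fun b => by
            obtain ⟨c, hc⟩ := ttal_valQ_inst₂ M A hpM hA hat.c' Q₂ hQ₂c b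
            exact grdg_val_mem Q₂ hc
          refine ttal_cross_chart_false (ttalIO2 M A hpM hA) _
            (ttrli_le_beta M A hpM hA hat.c') _ Q₂
            (heckeBetaBar Qb M p (grdQ M hat.c.mem)) (heckeBetaBar Qb M p (grdQ M hat.c'.mem))
            (ttal_beta_mul_inv M A hat) (ttrli_u_mem (M * p) A _) hreg' ?_ v hv a' ha'
          have h5 := ttal_red_u_inst₂ M A hpM hA hat.c'
            (ttrli_le_beta M A hpM hA hat.c' (ttrli_u_mem (M * p) A _))
          have h6 := ttal_cusp_val_zero M A hat Q₂ hQ₂n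
          rw [← h5] at h6
          exact h6
        · exact ⟨a, ha⟩

/-- **`MrnDisc₂Spec`** : the `I`-invariant disc coordinate `t = β t₀` at every closed point of the
second component which is not a node branch. -/
theorem mrf_disc₂ (hpM : ¬ p ∣ M) (hA : A.LiesOverPrime p) (hat : GrdAtlas M A τ τ')
    (hbe : heckeBetaBar Qb M p (grdQ M hat.c.mem) ∈
      grdB (M * p) A (heckeAlphaBar Qb M p (grdQ M hat.c.mem)))
    (hNC : ∀ 𝔫' : Ideal ↥(grdB (M * p) A (heckeAlphaBar Qb M p (grdQ M hat.c'.mem))),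
      𝔫'.IsPrime →
      (∀ x : ↥(grdB (M * p) A (heckeAlphaBar Qb M p (grdQ M hat.c'.mem))),
        (x : modularFunctionFieldBar (M * p)) ∈ (ttrV1 M A hpM hA).nonunits → x ∈ 𝔫') →
      (∀ x : ↥(grdB (M * p) A (heckeAlphaBar Qb M p (grdQ M hat.c'.mem))),
        (x : modularFunctionFieldBar (M * p)) ∈ (ttalIV2 M A hpM hA).nonunits → x ∈ 𝔫') →
      (∀ h : heckeAlphaBar Qb M p (grdQ M hat.c'.mem) ∈
          grdB (M * p) A (heckeAlphaBar Qb M p (grdQ M hat.c'.mem)),
        (⟨heckeAlphaBar Qb M p (grdQ M hat.c'.mem), h⟩ :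
          ↥(grdB (M * p) A (heckeAlphaBar Qb M p (grdQ M hat.c'.mem)))) ∈ 𝔫') → False)
    (hpar : MrfParamC M A hat.c) (hpar' : MrfParamC M A hat.c') :
    MrnDisc₂Spec M A hpM hA hat := by
  intro Q hnode
  obtain ⟨Q₁, hFr⟩ := mrfp_frob_place M A hA Q
  by_cases hQ : grdK M A hat.c.mem ∈ Q.toValuationSubring
  · -- the finite chart
    have hQ₁ : grdK M A hat.c.mem ∈ Q₁.toValuationSubring :=
      (mrf_chart_twist M A hA hat.c.mem Q Q₁ hFr).2 hQ
    obtain ⟨t₀, ht₀, hord, hfix⟩ := hpar Q hQ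
    refine ⟨heckeBetaBar Qb M p (t₀ : modularFunctionFieldBar M),
      ttr_beta_mem_O2 M A hpM t₀.2, fun σ => ?_, ?_, ?_⟩
    · exact (gasmhg_beta_intertwines M p σ.1 (t₀ : modularFunctionFieldBar M)).trans
        (congrArg (heckeBetaBar Qb M p) (hfix σ))
    · have h3 : ttrglRed₂ M A hpM hA ⟨heckeBetaBar Qb M p (t₀ : modularFunctionFieldBar M),
          ttr_beta_mem_O2 M A hpM t₀.2⟩ = grdRed M A t₀ := ttrRed2_beta M A hpM hA t₀
      rw [h3]
      exact hord
    · rw [ttrgl_cen₂_pos M A hpM hA hat Q hQ]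
      refine mrf_disc₂_chart M A hpM hA hat.c Q Q₁ hQ hQ₁ hFr (fun v hv₂ hv₁ => ?_)
        (fun v hv => ?_) t₀ ht₀ hord
      · exact hnode ⟨(Q₁, Q), hQ₁, hQ, fun b =>
          ttal_cross_ff M A hpM hA hat.c hbe Q₁ Q hQ₁ hQ v hv₁ hv₂ ⟨b.1, b.2⟩⟩ rfl
      · exact ttrli_chart (M * p) A _ v hv.1 _ hbe
  · -- the chart at infinity
    have hQc : grdK M A hat.c'.mem ∈ Q.toValuationSubring := ttrgl_chartK' M A hat Q hQ
    have hQ₁n : grdK M A hat.c.mem ∉ Q₁.toValuationSubring := fun h =>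
      hQ ((mrf_chart_twist M A hA hat.c.mem Q Q₁ hFr).1 h)
    have hQ₁c : grdK M A hat.c'.mem ∈ Q₁.toValuationSubring :=
      (mrf_chart_twist M A hA hat.c'.mem Q Q₁ hFr).2 hQc
    obtain ⟨t₀, ht₀, hord, hfix⟩ := hpar' Q hQc
    refine ⟨heckeBetaBar Qb M p (t₀ : modularFunctionFieldBar M),
      ttr_beta_mem_O2 M A hpM t₀.2, fun σ => ?_, ?_, ?_⟩
    · exact (gasmhg_beta_intertwines M p σ.1 (t₀ : modularFunctionFieldBar M)).trans
        (congrArg (heckeBetaBar Qb M p) (hfix σ))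
    · have h3 : ttrglRed₂ M A hpM hA ⟨heckeBetaBar Qb M p (t₀ : modularFunctionFieldBar M),
          ttr_beta_mem_O2 M A hpM t₀.2⟩ = grdRed M A t₀ := ttrRed2_beta M A hpM hA t₀
      rw [h3]
      exact hord
    · rw [ttrgl_cen₂_neg M A hpM hA hat Q hQ]
      refine mrf_disc₂_chart M A hpM hA hat.c' Q Q₁ hQc hQ₁c hFr (fun v hv₂ hv₁ => ?_)
        (fun v hv => ?_) t₀ ht₀ hord
      · exact ttal_cross_cc M A hpM hA hat hbe hNC Q₁ Q hQ₁n hQ v hv₁ hv₂
      · -- `v` lies in the chart of `β τ'` : otherwise `β τ (v) ∈ 𝔪`, so `α τ (v) ∈ 𝔸`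
        rcases mrf_cover A (M * p) _ _ (ttal_beta_mul_inv M A hat) v with h | ⟨a, ham, ha⟩
        · exfalso
          obtain ⟨a', ha'⟩ := ttrli_chart (M * p) A _ v h _ (ttal_hal_of_hbe M A hpM hat.c hbe)
          have hreg' : ∀ b : ↥(grdB (M * p) A (heckeAlphaBar Qb M p (grdQ M hat.c'.mem))),
              ttalRedO₁ (V₂ := ttalIV2 M A hpM hA) (ttalIRed1 M A hpM hA)
                ⟨b, ttrli_le_alpha M A hpM hA hat.c' b.2⟩ ∈ Q₁.toValuationSubring := fun b => by
            obtain ⟨c, hc⟩ := ttal_valQ_inst₁ M A hpM hA hat.c' Q₁ hQ₁c b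
            exact grdg_val_mem Q₁ hc
          refine ttal_cross_chart_false (ttalIO2 M A hpM hA) _
            (ttrli_le_alpha M A hpM hA hat.c') _ Q₁
            (heckeAlphaBar Qb M p (grdQ M hat.c.mem)) (heckeAlphaBar Qb M p (grdQ M hat.c'.mem))
            (ttal_alpha_mul_inv M A hat) (ttrli_u_mem (M * p) A _) hreg' ?_ v hv a' ha'
          have h5 := ttal_red_u_inst₁ M A hpM hA hat.c'
            (ttrli_le_alpha M A hpM hA hat.c' (ttrli_u_mem (M * p) A _))
          have h6 := ttal_cusp_val_zero M A hat Q₁ hQ₁n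
          rw [← h5] at h6
          exact h6
        · exact ⟨a, ha⟩

end Disc

end Fermat.Agent.MR
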