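import Mathlib
import Fermat.Agent.FF.IntInst.Top
import Fermat.Agent.FF.IntLRed
import Fermat.Agent.FF.IntL
import Fermat.Agent.G.Red.GenPlace
import Fermat.Agent.G.Red.Atlas

/-!
# Program MR, block mrf (owner of the block: helper23), leaf `Param` (helper14).  Prefix `mrfq`.

`mrfq_exists_param` : for an atlas `hat : GrdAtlas M A τ τ2` at `p ∤ M`, `A` over `p`, and a place
`Q` of the reduction `F_k(M)` inside the first chart, there is a *local parameter at `Q` which lifts
to an inertia-fixed Gauss-integral function, integral on the first chart* :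
`t0 ∈ grdO M A`, `GrdIsInt M A u t0`, `ord_Q (red t0) = 1`, `σ • t0 = t0` for all inertia `σ`.

Route: a uniformiser `x ∈ C_ū` at `Q` (`grdg_exists_unif`) lies in `L(m (ū)_∞)` for all large `m`
(`mrfq_exists_mem_rr`, finiteness of the zeros of `1/ū`); `(ū)_∞ = r_* (u)_∞`
(`fflr_mapDomain_polar`); the integral model `ffii_onto` lifts it to an inertia-fixed element of
`L(m (u)_∞) ∩ grdO`; `fflr_lattice_iff` says this is `GrdIsInt` on the first chart.
-/

set_option autoImplicit false
set_option linter.unusedSectionVars false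
set_option linter.unusedVariables false
set_option linter.style.haveILetI false
set_option synthInstance.maxHeartbeats 400000

noncomputable section

namespace Fermat.Agent.MR

open AlgebraicCurve ModularCurve IsLocalRing Fermat.Agent.G Fermat.Agent.S24 Fermat.Agent.S18
  Fermat.Agent.V.RR Fermat.Agent.FF

local notation "Qb" => AlgebraicClosure ℚ

/-- every function regular wherever `u` is lies in `L(m·(u)_∞)` for all large `m`. -/
theorem mrfq_exists_mem_rr {K F : Type*} [Field K] [Field F] [Algebra K F] {u u' : F}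
    (hs : IsSepGen K u) (huu' : u * u' = 1) (x : F) (hx : x ∈ intRing K u) (m0 : ℕ) :
    ∃ m : ℕ, m0 ≤ m ∧ x ∈ riemannRochSpace ((m : ℤ) • ffilPolar hs) := by
  classical
  have hu0 : u ≠ 0 := left_ne_zero_of_mul_eq_one huu'
  have hu'0 : u' ≠ 0 := right_ne_zero_of_mul_eq_one huu'
  have hu' : u' = u⁻¹ := eq_inv_of_mul_eq_one_right huu'
  have hs' : IsSepGen K u' := hu' ▸ hs.inv
  have hord' : ∀ v : Place K F, v.ord u' = -(v.ord u) := fun v => by rw [hu', Place.ord_inv]
  rcases eq_or_ne x 0 with rfl | hx0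
  · exact ⟨m0, le_rfl, Submodule.zero_mem _⟩
  set S : Finset (Place K F) := hs'.finite_ord_pos.toFinset with hS
  set m1 : ℕ := ∑ v ∈ S, (-(v.ord x)).toNat with hm1
  refine ⟨m0 + m1, Nat.le_add_right _ _, ?_⟩
  rw [ffil_mem_rr_iff hs huu' (m0 + m1) x]
  refine ⟨hx, ?_⟩
  rw [ffil_mem_intRing_iff hs']
  intro v hv
  rw [v.ord_mul hx0 (pow_ne_zero _ hu'0), ffil_ord_pow]
  rcases hv.eq_or_lt with h0 | hpos
  · rw [← h0, mul_zero, add_zero]
    have hvu : 0 ≤ v.ord u := by
      have := hord' v
      omega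
    exact (ffil_mem_intRing_iff hs x).1 hx v hvu
  · have hvS : v ∈ S := by
      rw [hS, Set.Finite.mem_toFinset]
      exact hpos
    have h1 : (-(v.ord x)).toNat ≤ m1 := by
      rw [hm1]
      exact Finset.single_le_sum (f := fun v : Place K F => (-(v.ord x)).toNat)
        (fun _ _ => Nat.zero_le _) hvS
    have h2 : -(v.ord x) ≤ ((-(v.ord x)).toNat : ℤ) := Int.self_le_toNat _
    have h3 : ((-(v.ord x)).toNat : ℤ) ≤ (m1 : ℤ) := by exact_mod_cast h1
    have h4 : ((m0 + m1 : ℕ) : ℤ) * 1 ≤ ((m0 + m1 : ℕ) : ℤ) * v.ord u' :=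
      mul_le_mul_of_nonneg_left (by omega) (by positivity)
    push_cast at h4 ⊢
    nlinarith

/-- **the inertia-fixed local parameter** : a uniformiser at a place `Q` of the first chart of the
reduction lifts to an inertia-fixed Gauss-integral function, integral over the first chart. -/
theorem mrfq_exists_param (M : ℕ) [NeZero M] {p : ℕ} [Fact p.Prime] (A : ValuationSubring Qb) (hpM : ¬ p ∣ M) (hA : A.LiesOverPrime p) {τ τ2 : LaurentSeries ℤ} (hat : GrdAtlas M A τ τ2) (Q : Place (ResidueField A) (modularFunctionFieldFullC (ResidueField A) M)) (hQ : grdK M A hat.c.mem ∈ Q.toValuationSubring) : ∃ t0 : ↥(grdO M A), GrdIsInt M A (grdQ M hat.c.mem) (t0 : modularFunctionFieldBar M) ∧ Q.ord (grdRed M A t0) = 1 ∧ ∀ σ : ↥(A.inertiaSubgroupIn ℚ), ffigRho M A σ • (t0 : modularFunctionFieldBar M) = t0 := by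
  haveI : IsAlgClosed (ResidueField A) := grd_isAlgClosed_residue A
  obtain ⟨x, hx⟩ := grdg_exists_unif hat.c.sepK Q hQ
  obtain ⟨r, hr⟩ := grd_exists_isRed M A hpM hA hat
  obtain ⟨m, hm, hxm⟩ := mrfq_exists_mem_rr hat.c.sepK (grda_grdK_mul M A hat)
    (x : modularFunctionFieldFullC (ResidueField A) M) x.2
    (2 * genusFF Qb (modularFunctionFieldBar M))
  have hc : (x : modularFunctionFieldFullC (ResidueField A) M) ∈
      riemannRochSpace (m • Finsupp.mapDomain r (ffilPolar hat.c.sepQ)) := by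
    rw [fflr_mapDomain_polar M A r hpM hA hat hr, ← natCast_zsmul]
    exact hxm
  obtain ⟨t0, ht0rr, ht0red, ht0fix⟩ := ffii_onto M A hpM hA hat r hr m hm _ hc
  refine ⟨t0, ?_, ?_, ht0fix⟩
  · rw [← natCast_zsmul] at ht0rr
    exact ((fflr_lattice_iff M A hpM hA hat m (t0 : modularFunctionFieldBar M)).2
      ⟨t0.2, ht0rr⟩).1
  · rw [ht0red]
    exact hx

end Fermat.Agent.MR
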