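import Mathlib
import Fermat.Agent.MR.False.Count
import Fermat.Agent.MR.False.Param
import Fermat.Agent.TT.Red2.ChartAll
import Fermat.Agent.TT.Red2.CountJ

/-!
# PROGRAM MR (S44), block `mrf` = FALSE NODES : closed forms of `MrnDisc₁Spec`, `MrnDisc₂Spec`

Owner: helper23.  Prefix `mrf`.  Namespace `Fermat.Agent.MR`.

* `mrf_paramC`, `mrf_paramC'` : the level-`M` input `MrfParamC` on both charts of any atlas, from
  helper14's `mrfq_exists_param` (`Param.lean`; the second chart through the swapped atlas).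
* `mrf_disc₁_of`, `mrf_disc₂_of` : `MrnDisc₁Spec`, `MrnDisc₂Spec` for any atlas, from `hbe` and
  (N-C) only.
* `mrf_disc₁_j`, `mrf_disc₂_j` : **hypothesis-free** for the `j`-atlas (`hbe` = Kronecker
  `ttr_chart_Y_mem`, (N-C) = `ttrkJ_NC`).
-/

set_option autoImplicit false
set_option linter.unusedSectionVars false
set_option linter.unusedVariables false
set_option linter.style.haveILetI false
set_option synthInstance.maxHeartbeats 400000

noncomputable section

namespace Fermat.Agent.MR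

open ModularCurve AlgebraicCurve IsLocalRing Polynomial Fermat.Agent.S18
  Fermat.Agent.S24 Fermat.Agent.G Fermat.Agent.FF Fermat.Agent.TT

open scoped Classical

local notation "Qb" => AlgebraicClosure ℚ

variable (M : ℕ) [NeZero M] {p : ℕ} [Fact p.Prime] [NeZero p]
variable (A : ValuationSubring Qb)

section Param

variable {τ τ' : LaurentSeries ℤ}

/-- the level-`M` input on the first chart of an atlas. -/
theorem mrf_paramC (hpM : ¬ p ∣ M) (hA : A.LiesOverPrime p) (hat : GrdAtlas M A τ τ') :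
    MrfParamC M A hat.c := fun Q hQ => mrfq_exists_param M A hpM hA hat Q hQ

/-- the swapped atlas. -/
theorem mrf_atlas_swap (hat : GrdAtlas M A τ τ') : GrdAtlas M A τ' τ :=
  ⟨by rw [mul_comm]; exact hat.inv, hat.c', hat.c⟩

/-- the level-`M` input on the second chart of an atlas. -/
theorem mrf_paramC' (hpM : ¬ p ∣ M) (hA : A.LiesOverPrime p) (hat : GrdAtlas M A τ τ') :
    MrfParamC M A hat.c' := fun Q hQ =>
  mrfq_exists_param M A hpM hA (mrf_atlas_swap M A hat) Q hQ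

/-- **`MrnDisc₁Spec`** for any atlas, from `hbe` and (N-C). -/
theorem mrf_disc₁_of (hpM : ¬ p ∣ M) (hA : A.LiesOverPrime p) (hat : GrdAtlas M A τ τ')
    (hbe : heckeBetaBar Qb M p (grdQ M hat.c.mem) ∈
      grdB (M * p) A (heckeAlphaBar Qb M p (grdQ M hat.c.mem)))
    (hNC : ∀ 𝔫' : Ideal ↥(grdB (M * p) A (heckeAlphaBar Qb M p (grdQ M hat.c'.mem))),
      𝔫'.IsPrime →
      (∀ x : ↥(grdB (M * p) A (heckeAlphaBar Qb M p (grdQ M hat.c'.mem))),
        (x : modularFunctionFieldBar (M * p)) ∈ (ttrV1 M A hpM hA).nonunits → x ∈ 𝔫') →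
      (∀ x : ↥(grdB (M * p) A (heckeAlphaBar Qb M p (grdQ M hat.c'.mem))),
        (x : modularFunctionFieldBar (M * p)) ∈ (ttalIV2 M A hpM hA).nonunits → x ∈ 𝔫') →
      (∀ h : heckeAlphaBar Qb M p (grdQ M hat.c'.mem) ∈
          grdB (M * p) A (heckeAlphaBar Qb M p (grdQ M hat.c'.mem)),
        (⟨heckeAlphaBar Qb M p (grdQ M hat.c'.mem), h⟩ :
          ↥(grdB (M * p) A (heckeAlphaBar Qb M p (grdQ M hat.c'.mem)))) ∈ 𝔫') → False) :
    MrnDisc₁Spec M A hpM hA hat :=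
  mrf_disc₁ M A hpM hA hat hbe hNC (mrf_paramC M A hpM hA hat) (mrf_paramC' M A hpM hA hat)

/-- **`MrnDisc₂Spec`** for any atlas, from `hbe` and (N-C). -/
theorem mrf_disc₂_of (hpM : ¬ p ∣ M) (hA : A.LiesOverPrime p) (hat : GrdAtlas M A τ τ')
    (hbe : heckeBetaBar Qb M p (grdQ M hat.c.mem) ∈
      grdB (M * p) A (heckeAlphaBar Qb M p (grdQ M hat.c.mem)))
    (hNC : ∀ 𝔫' : Ideal ↥(grdB (M * p) A (heckeAlphaBar Qb M p (grdQ M hat.c'.mem))),
      𝔫'.IsPrime →
      (∀ x : ↥(grdB (M * p) A (heckeAlphaBar Qb M p (grdQ M hat.c'.mem))),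
        (x : modularFunctionFieldBar (M * p)) ∈ (ttrV1 M A hpM hA).nonunits → x ∈ 𝔫') →
      (∀ x : ↥(grdB (M * p) A (heckeAlphaBar Qb M p (grdQ M hat.c'.mem))),
        (x : modularFunctionFieldBar (M * p)) ∈ (ttalIV2 M A hpM hA).nonunits → x ∈ 𝔫') →
      (∀ h : heckeAlphaBar Qb M p (grdQ M hat.c'.mem) ∈
          grdB (M * p) A (heckeAlphaBar Qb M p (grdQ M hat.c'.mem)),
        (⟨heckeAlphaBar Qb M p (grdQ M hat.c'.mem), h⟩ :
          ↥(grdB (M * p) A (heckeAlphaBar Qb M p (grdQ M hat.c'.mem)))) ∈ 𝔫') → False) :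
    MrnDisc₂Spec M A hpM hA hat :=
  mrf_disc₂ M A hpM hA hat hbe hNC (mrf_paramC M A hpM hA hat) (mrf_paramC' M A hpM hA hat)

end Param

/-! ### the `j`-atlas : hypothesis-free -/

section J

variable {τ' : LaurentSeries ℤ}

/-- **`MrnDisc₁Spec` for the `j`-atlas**, hypothesis-free. -/
theorem mrf_disc₁_j (hpM : ¬ p ∣ M) (hA : A.LiesOverPrime p)
    (hat : GrdAtlas M A (jqModC ℤ) τ') : MrnDisc₁Spec M A hpM hA hat :=
  mrf_disc₁_of M A hpM hA hat (ttr_chart_Y_mem M A hpM hA)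
    (ttrkJ_NC M p A hpM hA hat (ttalIV2 M A hpM hA) (fun x => Iff.rfl))

/-- **`MrnDisc₂Spec` for the `j`-atlas**, hypothesis-free. -/
theorem mrf_disc₂_j (hpM : ¬ p ∣ M) (hA : A.LiesOverPrime p)
    (hat : GrdAtlas M A (jqModC ℤ) τ') : MrnDisc₂Spec M A hpM hA hat :=
  mrf_disc₂_of M A hpM hA hat (ttr_chart_Y_mem M A hpM hA)
    (ttrkJ_NC M p A hpM hA hat (ttalIV2 M A hpM hA) (fun x => Iff.rfl))

end J

end Fermat.Agent.MR
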